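import Fermat.Agent.AV.Trace.Pair

/-!
# A fixed class gives an additive map up to a constant

Granted the splitting of the defect of additivity at two independent points, the transport of a
fixed class becomes additive on independent points after adding a constant class. It then commutes
with multiplication.
-/

set_option autoImplicit false

noncomputable section

open AlgebraicCurve Fermat.Agent.Row27 Fermat.Agent.Row25.Split IntermediateField

namespace Fermat.Agent.AV

universe u

variable {K : Type u} [Field K] {D : AVData K}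
variable {Ω : Type u} [Field Ω] [Algebra K Ω] [IsAlgClosed Ω]
variable {x : D.Pt Ω} {C : CurveData K}


variable (C x) in
/-- The classes that split: fixed by the automorphisms fixing two independent points, they are
sums of classes over their closures. -/
def SplitsAt : Prop :=
  ∀ (M : Type u) [Field M] [Algebra K M] [IsAlgClosed M] (e₁ e₂ : Ω →ₐ[K] M),
    D.Indep ![D.map e₁ x, D.map e₂ x] → D.fld ![D.map e₁ x, D.map e₂ x] = ⊤ →
    ∀ w : Pic0 M (C.curve M),
      (∀ σ : M ≃ₐ[K] M, (σ : M →ₐ[K] M).comp e₁ = e₁ → (σ : M →ₐ[K] M).comp e₂ = e₂ →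
        (specTheory C).act σ w = w) →
      ∃ a b : Pic0 Ω (C.curve Ω),
        (specTheory C).pic (Spec.ofAlgHom e₁) a + (specTheory C).pic (Spec.ofAlgHom e₂) b = w

theorem specIsFix_const [IsAlgClosed K] (c : Pic0 K (C.curve K)) :
    SpecIsFix (specTheory C) D x ((specTheory C).pic (Spec.ofAlgHom (Algebra.ofId K Ω)) c) :=
  fun σ _ => SpecTheory.act_pic (Algebra.ofId K Ω) σ (fun l => σ.commutes l) c

variable (hΩ : ∀ z : Ω, IsAlgebraic (D.defField x) z) (hx : D.IsGen x)
variable {M : Type u} [Field M] [Algebra K M] [IsAlgClosed M]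

section Const

variable [IsAlgClosed K]

include hΩ in
theorem transport_const (c : Pic0 K (C.curve K)) {y : D.Pt M} (hx : D.IsGen x) (hy : D.IsGen y) :
    transport (specTheory C) x ((specTheory C).pic (Spec.ofAlgHom (Algebra.ofId K Ω)) c) y =
      (specTheory C).pic (Spec.ofAlgHom (Algebra.ofId K M)) c := by
  obtain ⟨e, he⟩ := D.exists_red_eq x y hx hy hΩ
  rw [transport_eq hΩ (specIsFix_const c) e he, SpecTheory.pic_algHom_comp]
  congr 3
  exact Subsingleton.elim _ _

omit [IsAlgClosed K] in
include hΩ hx in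
theorem transport_add {z z' : Pic0 Ω (C.curve Ω)} (hz : SpecIsFix (specTheory C) D x z)
    (hz' : SpecIsFix (specTheory C) D x z') {y : D.Pt M} (hy : D.IsGen y) :
    transport (specTheory C) x (z + z') y = transport (specTheory C) x z y + transport
        (specTheory C) x z' y := by
  obtain ⟨e, he⟩ := D.exists_red_eq x y hx hy hΩ
  have h : SpecIsFix (specTheory C) D x (z + z') := fun σ hσ => by rw [map_add, hz σ hσ, hz' σ hσ]
  rw [transport_eq hΩ h e he, transport_eq hΩ hz e he, transport_eq hΩ hz' e he, map_add]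

end Const

variable [IsAlgClosed K] {z : Pic0 Ω (C.curve Ω)} (hz : SpecIsFix (specTheory C) D x z)

variable (x z) in
/-- The defect of additivity. -/
def defect (u v : D.Pt M) : Pic0 M (C.curve M) :=
  transport (specTheory C) x z (u + v) - transport (specTheory C) x z u - transport (specTheory C) x
      z v

include hΩ hx hz

omit [IsAlgClosed K] in
theorem defect_map {M' : Type u} [Field M'] [Algebra K M'] [IsAlgClosed M'] {u v : D.Pt M}
    (h : D.Indep ![u, v]) (f : M →ₐ[K] M') :
    defect x z (D.map f u) (D.map f v) =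
      (specTheory C).pic (Spec.ofAlgHom f) (defect x z u v) := by
  have hu : D.IsGen u := h.isGen 0
  have hv : D.IsGen v := h.isGen 1
  have huv : D.IsGen (u + v) := h.add_left.isGen 0
  rw [defect, defect, map_sub, map_sub, ← transport_map hΩ hx hz hu, ← transport_map hΩ hx hz hv,
    ← transport_map hΩ hx hz huv, map_add]

/-- The defect at independent points is a sum of transports of two fixed classes. -/
theorem exists_defect_eq (hs : SplitsAt x C) :
    ∃ α β : Pic0 Ω (C.curve Ω), SpecIsFix (specTheory C) D x α ∧ SpecIsFix (specTheory C) D x β ∧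
      ∀ (M : Type u) [Field M] [Algebra K M] [IsAlgClosed M] (u v : D.Pt M), D.Indep ![u, v] →
        defect x z u v = transport (specTheory C) x α u + transport (specTheory C) x β v := by
  obtain ⟨M, _, _, _, e, -, hind, htop, -⟩ := exists_indep_copies hx hΩ 2
  have heq : (fun k => D.map (e k) x) = ![D.map (e 0) x, D.map (e 1) x] := by
    funext k; fin_cases k <;> rfl
  rw [heq] at hind htop
  set U := D.map (e 0) x with hU
  set V := D.map (e 1) x with hV
  obtain ⟨a, b, hab⟩ := hs M (e 0) (e 1) hind htop (defect x z U V) fun σ h0 h1 => by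
    rw [SpecTheory.act, ← defect_map hΩ hx hz hind, hU, hV, D.map_map, D.map_map]
    exact congrArg₂ (fun f g => defect x z (D.map f x) (D.map g x)) h0 h1
  -- both classes are fixed
  have hfix : ∀ σ τ : Ω ≃ₐ[K] Ω, D.Fixes x σ → D.Fixes x τ →
      (specTheory C).pic (Spec.ofAlgHom (e 0)) ((specTheory C).act σ a) +
        (specTheory C).pic (Spec.ofAlgHom (e 1)) ((specTheory C).act τ b) = defect x z U V := by
    intro σ τ hσ hτ
    have hσ' : D.map ((e 0).comp (σ : Ω →ₐ[K] Ω)) x = U := by rw [← D.map_map, hσ]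
    have hτ' : D.map ((e 1).comp (τ : Ω →ₐ[K] Ω)) x = V := by rw [← D.map_map, hτ]
    obtain ⟨f, hf0, hf1⟩ := exists_hom_pair (M' := M) hΩ hind htop
      (f₁ := (e 0).comp (σ : Ω →ₐ[K] Ω)) (f₂ := (e 1).comp (τ : Ω →ₐ[K] Ω))
          (by rw [hσ', hτ']; exact hind)
    have hfU : D.map f U = U := by rw [hU, D.map_map, hf0, hσ']
    have hfV : D.map f V = V := by rw [hV, D.map_map, hf1, hτ']
    have h2 := defect_map hΩ hx hz hind f
    rw [hfU, hfV] at h2
    rw [h2, ← hab, map_add, SpecTheory.pic_algHom_comp, SpecTheory.pic_algHom_comp, hf0, hf1]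
    exact congrArg₂ (· + ·) (SpecTheory.pic_algHom_comp _ _ _ a)
        (SpecTheory.pic_algHom_comp _ _ _ b)
  have hid : D.Fixes x (AlgEquiv.refl : Ω ≃ₐ[K] Ω) := D.fixes_of_apply fun _ _ => rfl
  have hα : SpecIsFix (specTheory C) D x a := fun σ hσ => by
    have h := hfix σ AlgEquiv.refl hσ hid
    rw [SpecTheory.act_refl, ← hab] at h
    exact (specTheory C).pic_injective (e 0) (add_right_cancel h)
  have hβ : SpecIsFix (specTheory C) D x b := fun σ hσ => by
    have h := hfix AlgEquiv.refl σ hid hσ
    rw [SpecTheory.act_refl, ← hab] at h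
    exact (specTheory C).pic_injective (e 1) (add_left_cancel h)
  refine ⟨a, b, hα, hβ, fun M' _ _ _ u v huv => ?_⟩
  obtain ⟨f₁, hf₁⟩ := D.exists_red_eq x u hx (huv.isGen 0) hΩ
  obtain ⟨f₂, hf₂⟩ := D.exists_red_eq x v hx (huv.isGen 1) hΩ
  obtain ⟨f, hf0, hf1⟩ := exists_hom_pair (M' := M') hΩ hind htop (f₁ := f₁) (f₂ := f₂)
    (by rw [show D.map f₁ x = u from hf₁, show D.map f₂ x = v from hf₂]; exact huv)
  have hfU : D.map f U = u := by rw [hU, D.map_map, hf0]; exact hf₁
  have hfV : D.map f V = v := by rw [hV, D.map_map, hf1]; exact hf₂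
  have h2 := defect_map hΩ hx hz hind f
  rw [hfU, hfV] at h2
  rw [h2, ← hab, map_add, SpecTheory.pic_algHom_comp, SpecTheory.pic_algHom_comp, hf0, hf1,
    transport_eq hΩ hα f₁ hf₁, transport_eq hΩ hβ f₂ hf₂]

omit hz in
/-- The two summands differ by a constant. -/
theorem exists_symm_const {α β : Pic0 Ω (C.curve Ω)} (hα : SpecIsFix (specTheory C) D x α)
    (hβ : SpecIsFix (specTheory C) D x β)
    (h : ∀ (M : Type u) [Field M] [Algebra K M] [IsAlgClosed M] (u v : D.Pt M), D.Indep ![u, v] →
      defect x z u v = transport (specTheory C) x α u + transport (specTheory C) x β v) :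
    ∃ c, α = β + (specTheory C).pic (Spec.ofAlgHom (Algebra.ofId K Ω)) c := by
  obtain ⟨M, _, _, _, e, S, hind, -, hS⟩ := exists_indep_copies hx hΩ 2
  have heq : (fun k => D.map (e k) x) = ![D.map (e 0) x, D.map (e 1) x] := by
    funext k; fin_cases k <;> rfl
  rw [heq] at hind
  set U := D.map (e 0) x
  set V := D.map (e 1) x
  have h1 := h M U V hind
  have h2 := h M V U hind.swap
  have hsymm : defect x z V U = defect x z U V := by rw [defect, defect, add_comm V U]; abel
  rw [hsymm, h1] at h2
  have hU := hind.isGen 0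
  have hV := hind.isGen 1
  have e0 : ∀ {w}, SpecIsFix (specTheory C) D x w →
      transport (specTheory C) x w U = (specTheory C).pic (Spec.ofAlgHom (e 0)) w := fun hw =>
    transport_eq hΩ hw (e 0) rfl
  have h3 : transport (specTheory C) x α U - transport (specTheory C) x β U = transport
      (specTheory C) x α V - transport (specTheory C) x β V := by
    rw [sub_eq_sub_iff_add_eq_add, h2]
  have hd : Disj K (acl K (D.defField U : Set M) : Set M) (acl K (D.defField V : Set M)) :=
    (disj_fieldRange hΩ hind).mono (acl_le_fieldRange (e 0) (D.defField_le_fieldRange (e 0) x))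
      (acl_le_fieldRange (e 1) (D.defField_le_fieldRange (e 1) x))
  obtain ⟨c, hc⟩ := exists_const_of_ratOver S hS hd
    (sub_mem (transport_mem_ratOver hΩ hx hα hU) (transport_mem_ratOver hΩ hx hβ hU))
    (h3 ▸ sub_mem (transport_mem_ratOver hΩ hx hα hV) (transport_mem_ratOver hΩ hx hβ hV))
  refine ⟨c, (specTheory C).pic_injective (e 0) ?_⟩
  rw [map_add, ← e0 hα, ← e0 hβ, SpecTheory.pic_algHom_comp,
    show (e 0).comp (Algebra.ofId K Ω) = Algebra.ofId K M from Subsingleton.elim _ _, hc]
  abel

/-- **Additivity after a constant shift.** -/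
theorem exists_additive (hs : SplitsAt x C) :
    ∃ (φ : Pic0 Ω (C.curve Ω)) (κ : Pic0 K (C.curve K)), SpecIsFix (specTheory C) D x φ ∧
      φ = z + (specTheory C).pic (Spec.ofAlgHom (Algebra.ofId K Ω)) κ ∧
      ∀ (M : Type u) [Field M] [Algebra K M] [IsAlgClosed M] (u v : D.Pt M), D.Indep ![u, v] →
        transport (specTheory C) x φ (u + v) = transport (specTheory C) x φ u + transport
            (specTheory C) x φ v := by
  obtain ⟨α, β, hα, hβ, h⟩ := exists_defect_eq hΩ hx hz hs
  obtain ⟨c₀, hc₀⟩ := exists_symm_const hΩ hx hα hβ h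
  -- the transports
  let ψ : ∀ (M : Type u) [Field M] [Algebra K M] [IsAlgClosed M], D.Pt M → Pic0 M (C.curve M) :=
    fun M _ _ _ u => transport (specTheory C) x z u
  let A : ∀ (M : Type u) [Field M] [Algebra K M] [IsAlgClosed M], D.Pt M → Pic0 M (C.curve M) :=
    fun M _ _ _ u => transport (specTheory C) x z u + transport (specTheory C) x α u
  let κ₀ : ∀ (M : Type u) [Field M] [Algebra K M] [IsAlgClosed M], Pic0 M (C.curve M) :=
    fun M _ _ _ => (specTheory C).pic (Spec.ofAlgHom (Algebra.ofId K M)) c₀
  have hsum : ∀ (M : Type u) [Field M] [Algebra K M] [IsAlgClosed M] (u v : D.Pt M),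
      D.Indep ![u, v] → ψ M (u + v) = A M u + A M v - κ₀ M := by
    intro M _ _ _ u v huv
    have h1 := h M u v huv
    have h2 : transport (specTheory C) x α v = transport (specTheory C) x β v + κ₀ M := by
      have hv : D.IsGen v := huv.isGen 1
      rw [hc₀, transport_add hΩ hx hβ (specIsFix_const c₀) hv, transport_const hΩ c₀ hx hv]
    simp only [ψ, A]
    rw [defect, sub_eq_iff_eq_add, sub_eq_iff_eq_add] at h1
    rw [h1, h2]
    abel
  -- four independent points
  obtain ⟨M, _, _, _, e, S, hind, -, hS⟩ := exists_indep_copies hx hΩ 4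
  set p : Fin 4 → D.Pt M := fun k => D.map (e k) x with hp
  have hsel : ∀ i j k : Fin 4, i ≠ j → j ≠ k → i ≠ k → D.Indep ![p i, p j, p k] := by
    intro i j k hij hjk hik
    have h1 := hind.comp ![i, j, k] (by
      intro a b hab
      fin_cases a <;> fin_cases b <;> simp at hab <;>
        first | rfl | exact absurd hab (by assumption) | exact absurd hab.symm (by assumption))
    convert h1 using 1
    funext l
    fin_cases l <;> rfl
  have hΔ : ∀ u v w : D.Pt M, D.Indep ![u, v, w] →
      A M (u + v) - A M u - A M v = A M (v + w) - A M v - A M w := by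
    intro u v w huvw
    have h1 : D.Indep ![u + v, w] := by
      have h1 := (huvw.of_le (q := ![u + v, v, w]) fun k => ?_).comp ![0, 2] (by decide)
      · convert h1 using 1
        funext l; fin_cases l <;> rfl
      fin_cases k
      · have := D.sub_subset_fld ![u + v, v, w] (D.defField_subset_fld _ 0)
          (D.defField_subset_fld _ 1)
        simpa using this
      · exact D.defField_subset_fld ![u + v, v, w] 1
      · exact D.defField_subset_fld ![u + v, v, w] 2
    have h2 : D.Indep ![u, v + w] := by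
      have h2 := (huvw.of_le (q := ![u, v + w, w]) fun k => ?_).comp ![0, 1] (by decide)
      · convert h2 using 1
        funext l; fin_cases l <;> rfl
      fin_cases k
      · exact D.defField_subset_fld ![u, v + w, w] 0
      · have := D.sub_subset_fld ![u, v + w, w] (D.defField_subset_fld _ 1)
          (D.defField_subset_fld _ 2)
        simpa using this
      · exact D.defField_subset_fld ![u, v + w, w] 2
    have e1 := hsum M _ _ h1
    rw [add_assoc, hsum M _ _ h2, sub_left_inj] at e1
    rw [eq_sub_of_add_eq e1]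
    abel
  have hΔmem : ∀ u v : D.Pt M, D.Indep ![u, v] → A M (u + v) - A M u - A M v ∈
      (specTheory C).ratOver ((D.defField u : Set M) ∪ D.defField v) := by
    intro u v huv
    have hmem : ∀ {y : D.Pt M}, D.IsGen y →
        (D.defField y : Set M) ⊆ acl K ((D.defField u : Set M) ∪ D.defField v) →
        A M y ∈ (specTheory C).ratOver ((D.defField u : Set M) ∪ D.defField v) := fun hy hsub =>
      ratOver_mono hsub (add_mem (transport_mem_ratOver hΩ hx hz hy)
        (transport_mem_ratOver hΩ hx hα hy))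
    have hl : (D.defField u : Set M) ⊆ acl K ((D.defField u : Set M) ∪ D.defField v) :=
      Set.subset_union_left.trans (subset_acl _)
    have hr : (D.defField v : Set M) ⊆ acl K ((D.defField u : Set M) ∪ D.defField v) :=
      Set.subset_union_right.trans (subset_acl _)
    refine sub_mem (sub_mem (hmem (huv.add_left.isGen 0) ?_) (hmem (huv.isGen 0) hl))
      (hmem (huv.isGen 1) hr)
    exact SetLike.coe_subset_coe.mpr ((D.defField_add_le u v).trans
      (sup_le (SetLike.coe_subset_coe.mp hl) (SetLike.coe_subset_coe.mp hr)))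
  have hd : Disj K (acl K ((D.defField (p 0) : Set M) ∪ D.defField (p 1)) : Set M)
      (acl K ((D.defField (p 2) : Set M) ∪ D.defField (p 3))) := by
    obtain ⟨a, ha, hi⟩ := hind
    let y : Fin 2 × Fin D.g → M := fun q => a (Fin.castAdd 2 q.1) q.2
    let w : Fin 2 × Fin D.g → M := fun q => a (Fin.natAdd 2 q.1) q.2
    have hyw : AlgebraicIndependent K (Sum.elim y w) := by
      refine (algebraicIndependent_equiv' (Equiv.refl _) ?_).mp
        (hi.comp (Sum.elim (fun q => (Fin.castAdd 2 q.1, q.2)) fun q => (Fin.natAdd 2 q.1, q.2)) ?_)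
      · funext q; rcases q with q | q <;> rfl
      · rintro (⟨k, i⟩ | ⟨k, i⟩) (⟨l, j⟩ | ⟨l, j⟩) heq <;> simp [Fin.ext_iff] at heq <;>
          simp [Fin.ext_iff] <;> omega
    have hle : ∀ (k : Fin 4) (R : Set M), Set.range (a k) ⊆ R →
        (D.defField (p k) : Set M) ⊆ acl K R := fun k R hR =>
      (D.subset_acl_of_indep (ha k) (hi.comp (fun i => (k, i)) fun i j e =>
        (Prod.mk.injEq ..).mp e |>.2)).trans (acl_mono hR)
    refine (disj_acl hyw).mono (acl_le_of_subset_acl (Set.union_subset (hle 0 _ ?_) (hle 1 _ ?_)))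
      (acl_le_of_subset_acl (Set.union_subset (hle 2 _ ?_) (hle 3 _ ?_))) <;> rintro _ ⟨i, rfl⟩
    · exact ⟨(0, i), rfl⟩
    · exact ⟨(1, i), rfl⟩
    · exact ⟨(0, i), rfl⟩
    · exact ⟨(1, i), rfl⟩
  have h01 : D.Indep ![p 0, p 1] := by
    have h1 := hind.comp ![0, 1] (by decide)
    convert h1 using 1
    funext l; fin_cases l <;> rfl
  have h23 : D.Indep ![p 2, p 3] := by
    have h1 := hind.comp ![2, 3] (by decide)
    convert h1 using 1
    funext l; fin_cases l <;> rfl
  obtain ⟨c₁, hc₁⟩ := exists_const_of_ratOver S hS hd (hΔmem _ _ h01)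
    ((hΔ _ _ _ (hsel 0 1 2 (by decide) (by decide) (by decide))).trans
      (hΔ _ _ _ (hsel 1 2 3 (by decide) (by decide) (by decide))) ▸ hΔmem _ _ h23)
  -- the transport of `α` is constant
  obtain ⟨e', he'⟩ := D.exists_red_eq x (p 0 + p 1) hx (h01.add_left.isGen 0) hΩ
  have hαc : α = (specTheory C).pic (Spec.ofAlgHom (Algebra.ofId K Ω)) (c₀ + c₁) := by
    refine (specTheory C).pic_injective e' ?_
    rw [← transport_eq hΩ hα e' he', SpecTheory.pic_algHom_comp,
      show e'.comp (Algebra.ofId K Ω) = Algebra.ofId K M from Subsingleton.elim _ _, map_add, hc₁]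
    have h1 := hsum M _ _ h01
    simp only [ψ, A, κ₀] at h1 ⊢
    rw [h1]
    abel
  refine ⟨z + (specTheory C).pic (Spec.ofAlgHom (Algebra.ofId K Ω)) ((c₀ + c₁) + (c₀ + c₁) - c₀),
    _, fun σ hσ => by rw [map_add, hz σ hσ, specIsFix_const _ σ hσ], rfl, ?_⟩
  intro M' _ _ _ u v huv
  have hgen : D.IsGen (u + v) := huv.add_left.isGen 0
  have hu : D.IsGen u := huv.isGen 0
  have hv : D.IsGen v := huv.isGen 1
  rw [transport_add hΩ hx hz (specIsFix_const _) hu,
    transport_add hΩ hx hz (specIsFix_const _) hv,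
    transport_add hΩ hx hz (specIsFix_const _) hgen, transport_const hΩ _ hx hu,
    transport_const hΩ _ hx hv, transport_const hΩ _ hx hgen]
  have h1 := hsum M' u v huv
  simp only [ψ, A, κ₀, hαc] at h1
  rw [transport_const hΩ _ hx hu, transport_const hΩ _ hx hv] at h1
  simp only [map_sub, map_add] at h1 ⊢
  rw [h1]
  abel

/-- **The shifted class multiplies with the point.** -/
theorem exists_shift_nsmul (hs : SplitsAt x C) :
    ∃ κ : Pic0 K (C.curve K), ∀ (n : ℕ) (σ : Ω ≃ₐ[K] Ω), D.map (σ : Ω →ₐ[K] Ω) x = n • x →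
      (specTheory C).act σ (z + (specTheory C).pic (Spec.ofAlgHom (Algebra.ofId K Ω)) κ) =
        n • (z + (specTheory C).pic (Spec.ofAlgHom (Algebra.ofId K Ω)) κ) := by
  obtain ⟨φ, κ, hφ, rfl, hadd⟩ := exists_additive hΩ hx hz hs
  refine ⟨κ, fun n σ hσ => ?_⟩
  set φ := z + (specTheory C).pic (Spec.ofAlgHom (Algebra.ofId K Ω)) κ
  obtain ⟨M, _, _, _, e, -, hind, -, -⟩ := exists_indep_copies hx hΩ 2
  have heq : (fun k => D.map (e k) x) = ![D.map (e 0) x, D.map (e 1) x] := by
    funext k; fin_cases k <;> rfl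
  rw [heq] at hind
  set U := D.map (e 0) x with hU
  set V := D.map (e 1) x
  have hnU : D.map ((e 0).comp (σ : Ω →ₐ[K] Ω)) x = n • U := by
    rw [← D.map_map, hσ, map_nsmul]
  have key : ∀ (m : ℕ) (v : D.Pt M), D.Indep ![U, v] →
      transport (specTheory C) x φ (m • U + v) = m • transport (specTheory C) x φ U + transport
          (specTheory C) x φ v := by
    intro m
    induction m with
    | zero => intro v _; rw [zero_nsmul, zero_add, zero_nsmul, zero_add]
    | succ m ih =>
      intro v hv
      rw [succ_nsmul, add_assoc, ih _ hv.add_right, hadd M U v hv, succ_nsmul, add_assoc]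
  have hgen : D.IsGen (n • U) := hnU ▸ AVData.IsGen.map D hx _
  have hpair : D.Indep ![n • U, V] := by
    refine hind.of_le fun k => ?_
    fin_cases k
    · exact (subset_acl_of_isGen hgen (D.defField_nsmul n U)).trans
        (acl_le_of_subset_acl (D.defField_subset_fld ![n • U, V] 0))
    · exact D.defField_subset_fld ![n • U, V] 1
  have h1 := key n V hind
  rw [hadd M _ V hpair, add_left_inj, transport_eq hΩ hφ _ hnU,
    transport_eq hΩ hφ (e 0) hU.symm] at h1
  refine (specTheory C).pic_injective (e 0) ?_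
  rw [SpecTheory.act, SpecTheory.pic_algHom_comp, map_nsmul]
  exact h1

end Fermat.Agent.AV

end
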