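import Fermat.Agent.AV.Height
import Fermat.Agent.Row25.AV.Split.Extend

/-!
# Descent of classes and sums over orbits

A class coming from two algebraically closed subfields meeting in the constants comes from the
constants. A tuple of classes has a finite orbit over a field over which everything is algebraic,
and the sum over the orbit is fixed. A class fixed over such a field has theta ratios purely
inseparable over it.
-/

set_option autoImplicit false

noncomputable section

open AlgebraicCurve Fermat.Agent.Row27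

namespace Fermat.Agent.AV

universe u

variable {K : Type u} [Field K] {Ω : Type u} [Field Ω] [Algebra K Ω] [IsAlgClosed Ω]

section Intersection

variable [IsAlgClosed K] {C : CurveData K}

/-- A class coming from two algebraically closed subfields meeting in the constants comes from the
constants. -/
theorem exists_pic_of_inf_eq_bot (Th : ThetaTheory C (specTheory C)) (S : Finset Ω)
    (hS : ∀ z : Ω, IsAlgebraic (IntermediateField.adjoin K (S : Set Ω)) z)
    {L₁ L₂ : IntermediateField K Ω} [IsAlgClosed L₁] [IsAlgClosed L₂] (hinf : L₁ ⊓ L₂ = ⊥)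
    {x : Pic0 Ω (C.curve Ω)} (y₁ : Pic0 L₁ (C.curve L₁)) (y₂ : Pic0 L₂ (C.curve L₂))
    (h₁ : (specTheory C).pic (Spec.ofAlgHom L₁.val) y₁ = x)
    (h₂ : (specTheory C).pic (Spec.ofAlgHom L₂.val) y₂ = x) :
    ∃ y, (specTheory C).pic (Spec.ofAlgHom (Algebra.ofId K Ω)) y = x := by
  rcases Nat.eq_zero_or_pos C.g with hg | hg
  · exact ⟨0, by rw [map_zero, Row25.Split.eq_zero_of_g hg x]⟩
  have m1 := Th.nrm_mem_range L₁.val (x := x) (h₁ ▸ Th.isConst_pic L₁.val y₁)
  have m2 := Th.nrm_mem_range L₂.val (x := x) (h₂ ▸ Th.isConst_pic L₂.val y₂)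
  have h0 : Set.range (Th.nrm x) ⊆ Set.range (Algebra.ofId K Ω) := fun w hw => by
    have hw1 : w ∈ L₁ := by
      obtain ⟨l, rfl⟩ := m1 hw
      exact l.2
    have hw2 : w ∈ L₂ := by
      obtain ⟨l, rfl⟩ := m2 hw
      exact l.2
    have hw' : w ∈ (⊥ : IntermediateField K Ω) := hinf ▸ ⟨hw1, hw2⟩
    obtain ⟨c, hc⟩ := IntermediateField.mem_bot.mp hw'
    exact ⟨c, hc⟩
  refine Th.exists_eq_pic hg S (Algebra.ofId K Ω) (fun z => ?_)
    (Th.isConst_of_nrm_mem (Algebra.ofId K Ω) h0)
  have hle : IntermediateField.adjoin K (S : Set Ω) ≤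
      IntermediateField.adjoin K (Set.range (Algebra.ofId K Ω) ∪ (S : Set Ω)) :=
    IntermediateField.adjoin.mono K _ _ Set.subset_union_right
  let := (IntermediateField.inclusion hle).toRingHom.toAlgebra
  have : IsScalarTower (IntermediateField.adjoin K (S : Set Ω))
      (IntermediateField.adjoin K (Set.range (Algebra.ofId K Ω) ∪ (S : Set Ω))) Ω :=
    IsScalarTower.of_algebraMap_eq fun _ => rfl
  exact (hS z).isIntegral.tower_top.isAlgebraic

end Intersection

section Orbit

variable {ι : Type*} [Finite ι] (C : ι → CurveData K)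

/-- A tuple of classes has a finite orbit over a field over which everything is algebraic. -/
theorem finite_orbit_tuple (M : IntermediateField K Ω) (halg : ∀ z : Ω, IsAlgebraic M z)
    (x : ∀ i, Pic0 Ω ((C i).curve Ω)) :
    (Set.range fun σ : {σ : Ω ≃ₐ[K] Ω // ∀ m ∈ M, σ m = m} =>
      fun i => (specTheory (C i)).act σ.1 (x i)).Finite := by
  classical
  choose c hc using fun i => Row25.Split.exists_coords (specTheory (C i)) (x i)
  let P : Set (∀ i, c i → Ω) := Set.univ.pi fun i => Set.univ.pi fun z : c i =>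
    (minpoly M (z : Ω)).rootSet Ω
  have hP : P.Finite := Set.Finite.pi fun i => Set.Finite.pi fun z => Polynomial.rootSet_finite _ _
  have hroot : ∀ (σ : Ω ≃ₐ[K] Ω), (∀ m ∈ M, σ m = m) → ∀ z : Ω,
      σ z ∈ (minpoly M z).rootSet Ω := fun σ hσ z => by
    let τ : Ω →ₐ[M] Ω := { σ.toAlgHom.toRingHom with commutes' := fun m => hσ (m : Ω) m.2 }
    refine Polynomial.mem_rootSet.mpr ⟨minpoly.ne_zero (halg z).isIntegral, ?_⟩
    show Polynomial.aeval (τ z) (minpoly M z) = 0
    rw [Polynomial.aeval_algHom_apply, minpoly.aeval, map_zero]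
  let key : {σ : Ω ≃ₐ[K] Ω // ∀ m ∈ M, σ m = m} → P := fun σ =>
    ⟨fun i z => σ.1 z, fun i _ z _ => hroot σ.1 σ.2 z⟩
  have hfin : Finite P := hP.to_subtype
  have : ∀ σ σ', key σ = key σ' → (fun i => (specTheory (C i)).act σ.1 (x i)) =
      fun i => (specTheory (C i)).act σ'.1 (x i) := fun σ σ' h => funext fun i =>
    hc i σ.1 σ'.1 fun z hz => congrFun (congrFun (congrArg Subtype.val h) i) ⟨z, hz⟩
  refine Set.Finite.subset ((Set.finite_range fun w : Set.range key =>
    fun i => (specTheory (C i)).act (Classical.choose w.2).1 (x i))) ?_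
  rintro _ ⟨σ, rfl⟩
  exact ⟨⟨key σ, σ, rfl⟩, this _ _ (Classical.choose_spec (⟨σ, rfl⟩ : key σ ∈ Set.range key))⟩

/-- **Sums over orbits**: fixed classes whose image is a multiple of the common image of the
conjugates of a tuple. -/
theorem exists_orbit_sum [Fintype ι] (M : IntermediateField K Ω) (halg : ∀ z : Ω, IsAlgebraic M z)
    (x : ∀ i, Pic0 Ω ((C i).curve Ω)) {A : Type*} [AddCommGroup A]
    (s : ∀ i, Pic0 Ω ((C i).curve Ω) →+ A) (P : A)
    (hP : ∀ σ : Ω ≃ₐ[K] Ω, (∀ m ∈ M, σ m = m) →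
      ∑ i, s i ((specTheory (C i)).act σ (x i)) = P) :
    ∃ (N : ℕ) (z : ∀ i, Pic0 Ω ((C i).curve Ω)), 0 < N ∧ ∑ i, s i (z i) = N • P ∧
      ∀ σ : Ω ≃ₐ[K] Ω, (∀ m ∈ M, σ m = m) → ∀ i, (specTheory (C i)).act σ (z i) = z i := by
  classical
  set O := (finite_orbit_tuple C M halg x).toFinset with hO
  have hmem : ∀ o, o ∈ O ↔ ∃ σ : {σ : Ω ≃ₐ[K] Ω // ∀ m ∈ M, σ m = m},
      (fun i => (specTheory (C i)).act σ.1 (x i)) = o := fun o => by
    rw [hO, Set.Finite.mem_toFinset]
    exact Iff.rfl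
  refine ⟨O.card, fun i => ∑ o ∈ O, o i, ?_, ?_, fun σ hσ i => ?_⟩
  · exact Finset.card_pos.mpr ⟨_, (hmem _).mpr ⟨⟨AlgEquiv.refl, fun _ _ => rfl⟩, rfl⟩⟩
  · simp only [map_sum]
    rw [Finset.sum_comm, ← Finset.sum_const]
    refine Finset.sum_congr rfl fun o ho => ?_
    obtain ⟨σ, rfl⟩ := (hmem o).mp ho
    exact hP σ.1 σ.2
  · rw [map_sum]
    have hsymm : ∀ m ∈ M, σ.symm m = m := fun m hm => by
      rw [AlgEquiv.symm_apply_eq, hσ m hm]
    refine Finset.sum_bij' (fun o _ => fun j => (specTheory (C j)).act σ (o j))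
      (fun o _ => fun j => (specTheory (C j)).act σ.symm (o j)) ?_ ?_ ?_ ?_ ?_
    · intro o ho
      obtain ⟨τ, rfl⟩ := (hmem o).mp ho
      refine (hmem _).mpr ⟨⟨τ.1.trans σ, fun m hm => by rw
          [AlgEquiv.trans_apply, τ.2 m hm, hσ m hm]⟩,
        funext fun j => ?_⟩
      rw [SpecTheory.act_act]
    · intro o ho
      obtain ⟨τ, rfl⟩ := (hmem o).mp ho
      refine (hmem _).mpr ⟨⟨τ.1.trans σ.symm, fun m hm => by
        rw [AlgEquiv.trans_apply, τ.2 m hm, hsymm m hm]⟩, funext fun j => ?_⟩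
      rw [SpecTheory.act_act]
    · intro o _
      exact funext fun j => (specTheory (C j)).act_symm_act σ (o j)
    · intro o _
      exact funext fun j => by
        rw [SpecTheory.act_act, AlgEquiv.symm_trans_self, SpecTheory.act_refl]
    · intro o _
      rfl

end Orbit

end Fermat.Agent.AV

end
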