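import Fermat.Agent.Row27.Points
import Fermat.Agent.Row27.GenClass
import Fermat.Agent.Row25.AV.Split.Spec

/-!
# Algebraic closures of subsets of an algebraically closed field

Transport of algebraic closures along embeddings, independence of families generating the same
closure, and the intersection of the closures of independent families.
-/

set_option autoImplicit false

noncomputable section

open Fermat.Agent.Row27 Fermat.Agent.Row25.Split IntermediateField

namespace Fermat.Agent.AV

universe u

variable {K : Type u} [Field K] {M : Type u} [Field M] [Algebra K M] [IsAlgClosed M]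

theorem acl_le_of_subset_acl {S T : Set M} (h : S ⊆ acl K T) : acl K S ≤ acl K T := by
  intro z hz
  obtain ⟨w, hw⟩ := mem_range_of_isAlgebraic (acl K T).val (S := S)
    (fun x hx => ⟨⟨x, h hx⟩, rfl⟩) (mem_acl.mp hz)
  exact hw ▸ w.2

theorem acl_mono {S T : Set M} (h : S ⊆ T) : acl K S ≤ acl K T :=
  acl_le_of_subset_acl (h.trans (subset_acl T))

theorem acl_eq_top {S T : Set M} (h : acl K S = ⊤) (hST : S ⊆ acl K T) : acl K T = ⊤ :=
  top_unique (h.ge.trans (acl_le_of_subset_acl hST))

theorem map_mem_acl_iff {M' : Type u} [Field M'] [Algebra K M'] [IsAlgClosed M']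
    (f : M →ₐ[K] M') {S : Set M} {z : M} : f z ∈ acl K (f '' S) ↔ z ∈ acl K S := by
  rw [mem_acl, mem_acl]
  let e : IntermediateField.adjoin K S ≃ₐ[K] IntermediateField.adjoin K (f '' S) :=
    ((IntermediateField.adjoin K S).equivMap f).trans
      (IntermediateField.equivOfEq (IntermediateField.adjoin_map K S f))
  exact isAlgebraic_ringHom_iff_of_comp_eq e.toRingEquiv f.toRingHom f.injective
    (RingHom.ext fun x => rfl)

/-- An element transcendental over the closure of an independent family enlarges it. -/
theorem exists_indep_succ {n : ℕ} {v : Fin n → M} (hv : AlgebraicIndependent K v) {z : M}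
    (hz : z ∉ acl K (Set.range v)) :
    AlgebraicIndependent K (Fin.cons z v : Fin (n + 1) → M) := by
  have htr : Transcendental (Algebra.adjoin K (Set.range v)) z := by
    rw [← IntermediateField.transcendental_adjoin_iff]
    exact fun h => hz (mem_acl.mpr h)
  have h := (hv.option_iff_transcendental z).mpr htr
  refine (algebraicIndependent_equiv' (finSuccEquiv n) (f := fun o : Option (Fin n) => o.elim z v)
      ?_).mpr h
  funext i
  refine Fin.cases ?_ (fun j => ?_) i <;> simp

/-- A subfield without `n + 1` independent elements is algebraic over `n` of its elements. -/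
theorem exists_family (E : IntermediateField K M) (n : ℕ)
    (h : ∀ v : Fin (n + 1) → M, (∀ i, v i ∈ E) → ¬ AlgebraicIndependent K v) :
    ∃ v : Fin n → M, (∀ i, v i ∈ E) ∧ (E : Set M) ⊆ acl K (Set.range v) := by
  classical
  let P : ℕ → Prop := fun m =>
    ∃ v : Fin m → M, (∀ i, v i ∈ E) ∧ AlgebraicIndependent K v
  set m := Nat.findGreatest P n with hm
  have hmle : m ≤ n := Nat.findGreatest_le n
  obtain ⟨v, hvE, hv⟩ : P m := Nat.findGreatest_spec (Nat.zero_le n)
    ⟨Fin.elim0, fun i => i.elim0, algebraicIndependent_empty_type⟩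
  let w : Fin n → M := fun i => if hi : (i : ℕ) < m then v ⟨i, hi⟩ else 0
  refine ⟨w, fun i => ?_, fun z hz => ?_⟩
  · simp only [w]; split_ifs
    · exact hvE _
    · exact zero_mem _
  have hsub : Set.range v ⊆ Set.range w := by
    rintro _ ⟨i, rfl⟩
    exact ⟨Fin.castLE hmle i, by simp [w]⟩
  refine acl_mono hsub ?_
  by_contra hzv
  have h1 := exists_indep_succ hv hzv
  have hE : ∀ i, (Fin.cons z v : Fin (m + 1) → M) i ∈ E := fun i => by
    refine Fin.cases ?_ (fun j => ?_) i
    · simpa using hz
    · simpa using hvE j
  rcases hmle.eq_or_lt with heq | hlt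
  · rw [← heq] at h
    exact h _ hE h1
  · exact Nat.findGreatest_is_greatest (Nat.lt_succ_self m) hlt ⟨_, hE, h1⟩

/-- A family generating an independent family of at least its size is independent. -/
theorem independent_of_acl {ι κ : Type} [Finite ι] [Finite κ] {x : ι → M} {y : κ → M}
    (hx : AlgebraicIndependent K x) (hle : Nat.card κ ≤ Nat.card ι)
    (h : Set.range x ⊆ acl K (Set.range y)) : AlgebraicIndependent K y := by
  let k := acl K (Set.range y)
  let y' : κ → k := fun i => ⟨y i, subset_acl _ ⟨i, rfl⟩⟩
  let x' : ι → k := fun i => ⟨x i, h ⟨i, rfl⟩⟩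
  have hy : y = k.val ∘ y' := rfl
  have hx' : AlgebraicIndependent K x' := AlgebraicIndependent.of_comp k.val hx
  have : Algebra.IsAlgebraic (Algebra.adjoin K (Set.range y')) k := ⟨fun z => by
    rw [← IntermediateField.isAlgebraic_adjoin_iff]
    have hz : k.val z ∈ acl K (k.val '' Set.range y') := by
      rw [← Set.range_comp, ← hy]
      exact z.2
    exact mem_acl.mp ((map_mem_acl_iff k.val).mp hz)⟩
  have hcard : Cardinal.lift.{u} (Cardinal.mk κ) ≤ Cardinal.lift.{0} (Algebra.trdeg K k) := by
    refine le_trans ?_ hx'.lift_cardinalMk_le_trdeg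
    rw [Cardinal.lift_le, ← Nat.cast_card, ← Nat.cast_card]
    exact_mod_cast hle
  exact ((Algebra.IsAlgebraic.isTranscendenceBasis_of_lift_le_trdeg_of_finite K y'
    hcard).1).map' (f := k.val) k.val.injective

/-- Independence passes to the closure of part of a family. -/
theorem independent_acl {ι κ : Type*} {x : ι → M} {y : κ → M}
    (h : AlgebraicIndependent K (Sum.elim y x)) : AlgebraicIndependent (acl K (Set.range x)) y := by
  have h1 := (AlgebraicIndependent.sumElim_iff.mp h).2
  rw [← IntermediateField.algebraicIndependent_adjoin_iff] at h1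
  exact h1.algebraicClosure

/-- Closures of independent families are linearly disjoint. -/
theorem disj_acl [IsAlgClosed K] {ι κ : Type*} {x : ι → M} {y : κ → M}
    (h : AlgebraicIndependent K (Sum.elim y x)) :
    Disj K (acl K (Set.range y) : Set M) (acl K (Set.range x) : Set M) :=
  disj_of_algebraicIndependent (acl K (Set.range x)) y (independent_acl h) fun _ hz =>
    IntermediateField.isAlgebraic_adjoin_iff.mp (mem_acl.mp hz)

omit [IsAlgClosed M] in
/-- Linearly disjoint subfields meet in the ground field. -/
theorem mem_range_of_disj {S T : Set M} (hd : Disj K S T) (hS : (1 : M) ∈ S)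
    (hS' : ∀ z ∈ S, -z ∈ S) (hT : (1 : M) ∈ T) {z : M} (hz : z ∈ S) (hz' : z ∈ T) :
    ∃ c : K, algebraMap K M c = z := by
  by_contra hc
  push Not at hc
  have hind : LinearIndependent K ![(1 : M), z] := by
    rw [LinearIndependent.pair_iff' (one_ne_zero : (1 : M) ≠ 0)]
    exact fun c h => hc c (by rw [← h, Algebra.algebraMap_eq_smul_one])
  have h := hd 2 ![-z, 1] ![1, z] (fun i => by fin_cases i <;> simp [hS, hS' z hz])
    (fun i => by fin_cases i <;> simp [hT, hz']) hind (by simp) 1
  simp at h

end Fermat.Agent.AV

end
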