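import Fermat.Agent.AV.Interface
import Fermat.Agent.AV.Trace.Fields
import Mathlib.FieldTheory.IsAlgClosed.AlgebraicClosure
import Mathlib.RingTheory.Localization.Integral

/-!
# Independent generic points

A finite family of points is independent if their fields of definition contain independent
families of `g` elements each.
-/

set_option autoImplicit false

noncomputable section

open Fermat.Agent.Row27 IntermediateField

namespace Fermat.Agent.AV

universe u

variable {K : Type u} [Field K] (D : AVData K)

section

variable {L M : Type u} [Field L] [Algebra K L] [Field M] [Algebra K M]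

theorem AVData.defField_map (f : L →ₐ[K] M) (x : D.Pt L) :
    (D.defField (D.map f x) : Set M) = f '' D.defField x := by
  rw [show D.defField (D.map f x) = (D.defField x).map f from D.defField_red f x,
    IntermediateField.coe_map]

theorem AVData.IsGen.map {x : D.Pt L} (h : D.IsGen x) (f : L →ₐ[K] M) :
    D.IsGen (D.map f x) := by
  obtain ⟨v, hv, hmem⟩ := h
  refine ⟨f ∘ v, hv.map' f.injective, fun i => ?_⟩
  rw [← SetLike.mem_coe, D.defField_map]
  exact ⟨v i, hmem i, rfl⟩

/-- The field of definition of a sum lies in the compositum. -/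
theorem AVData.defField_add_le (x y : D.Pt M) :
    D.defField (x + y) ≤ D.defField x ⊔ D.defField y := by
  set E := D.defField x ⊔ D.defField y
  have hx : D.defField x ≤ E.val.fieldRange := by
    rw [IntermediateField.fieldRange_val]; exact le_sup_left
  have hy : D.defField y ≤ E.val.fieldRange := by
    rw [IntermediateField.fieldRange_val]; exact le_sup_right
  obtain ⟨x', hx'⟩ := D.exists_map_eq E.val x hx
  obtain ⟨y', hy'⟩ := D.exists_map_eq E.val y hy
  have h := D.defField_le_fieldRange E.val (x' + y')
  rwa [map_add, hx', hy', IntermediateField.fieldRange_val] at h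

theorem AVData.defField_neg (x : D.Pt M) : D.defField (-x) ≤ D.defField x := by
  have hx : D.defField x ≤ (D.defField x).val.fieldRange := by
    rw [IntermediateField.fieldRange_val]
  obtain ⟨x', hx'⟩ := D.exists_map_eq (D.defField x).val x hx
  have h := D.defField_le_fieldRange (D.defField x).val (-x')
  rwa [map_neg, hx', IntermediateField.fieldRange_val] at h

theorem AVData.defField_nsmul (n : ℕ) (x : D.Pt M) : D.defField (n • x) ≤ D.defField x := by
  have hx : D.defField x ≤ (D.defField x).val.fieldRange := by
    rw [IntermediateField.fieldRange_val]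
  obtain ⟨x', hx'⟩ := D.exists_map_eq (D.defField x).val x hx
  have h := D.defField_le_fieldRange (D.defField x).val (n • x')
  rwa [map_nsmul, hx', IntermediateField.fieldRange_val] at h

variable [IsAlgClosed M]

/-- The closure of the fields of definition of some points. -/
abbrev AVData.fld {m : ℕ} (p : Fin m → D.Pt M) : IntermediateField K M :=
  acl K (⋃ k, (D.defField (p k) : Set M))

theorem AVData.defField_subset_fld {m : ℕ} (p : Fin m → D.Pt M) (k : Fin m) :
    (D.defField (p k) : Set M) ⊆ D.fld p :=
  (Set.subset_iUnion (fun k => (D.defField (p k) : Set M)) k).trans (subset_acl _)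

theorem AVData.add_subset_fld {m : ℕ} (p : Fin m → D.Pt M) {x y : D.Pt M}
    (hx : (D.defField x : Set M) ⊆ D.fld p) (hy : (D.defField y : Set M) ⊆ D.fld p) :
    (D.defField (x + y) : Set M) ⊆ D.fld p :=
  SetLike.coe_subset_coe.mpr ((D.defField_add_le x y).trans
    (sup_le (SetLike.coe_subset_coe.mp hx) (SetLike.coe_subset_coe.mp hy)))

theorem AVData.sub_subset_fld {m : ℕ} (p : Fin m → D.Pt M) {x y : D.Pt M}
    (hx : (D.defField x : Set M) ⊆ D.fld p) (hy : (D.defField y : Set M) ⊆ D.fld p) :
    (D.defField (x - y) : Set M) ⊆ D.fld p := by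
  rw [sub_eq_add_neg]
  exact D.add_subset_fld p hx ((SetLike.coe_subset_coe.mpr (D.defField_neg y)).trans hy)

/-- Independent elements of the field of a point generate it up to algebraic extension. -/
theorem AVData.subset_acl_of_indep {x : D.Pt M} {a : Fin D.g → M}
    (ha : ∀ i, a i ∈ D.defField x) (hind : AlgebraicIndependent K a) :
    (D.defField x : Set M) ⊆ acl K (Set.range a) := by
  intro z hz
  by_contra hza
  refine D.not_independent x _ (fun i => ?_) (exists_indep_succ hind hza)
  refine Fin.cases ?_ (fun j => ?_) i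
  · simpa using hz
  · simpa using ha j

/-- A family of points in general position. -/
def AVData.Indep {m : ℕ} (p : Fin m → D.Pt M) : Prop :=
  ∃ a : Fin m → Fin D.g → M, (∀ k i, a k i ∈ D.defField (p k)) ∧
    AlgebraicIndependent K fun q : Fin m × Fin D.g => a q.1 q.2

variable {D}

omit [IsAlgClosed M] in
theorem AVData.Indep.isGen {m : ℕ} {p : Fin m → D.Pt M} (h : D.Indep p) (k : Fin m) :
    D.IsGen (p k) := by
  obtain ⟨a, ha, hind⟩ := h
  exact ⟨a k, hind.comp (fun i => (k, i)) fun i j e => (Prod.mk.injEq ..).mp e |>.2, ha k⟩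

omit [IsAlgClosed M] in
theorem AVData.Indep.comp {m n : ℕ} {p : Fin m → D.Pt M} (h : D.Indep p) (f : Fin n → Fin m)
    (hf : Function.Injective f) : D.Indep (p ∘ f) := by
  obtain ⟨a, ha, hind⟩ := h
  exact ⟨a ∘ f, fun k i => ha (f k) i, hind.comp (Prod.map f id) (hf.prodMap Function.injective_id)⟩

/-- Points generating independent points are independent. -/
theorem AVData.Indep.of_le {m : ℕ} {p q : Fin m → D.Pt M} (h : D.Indep p)
    (hle : ∀ k, (D.defField (p k) : Set M) ⊆ D.fld q) : D.Indep q := by
  obtain ⟨a, ha, hind⟩ := h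
  choose b hb hbs using fun k => exists_family (D.defField (q k)) D.g (D.not_independent (q k))
  refine ⟨b, hb, independent_of_acl hind le_rfl ?_⟩
  rintro _ ⟨⟨k, i⟩, rfl⟩
  refine acl_le_of_subset_acl ?_ (hle k (ha k i))
  refine Set.iUnion_subset fun l => (hbs l).trans (acl_mono ?_)
  rintro _ ⟨j, rfl⟩
  exact ⟨(l, j), rfl⟩

end

variable {D}

/-- Copies of a generic point in general position, with a finite set generating everything. -/
theorem exists_indep_copies {Ω : Type u} [Field Ω] [Algebra K Ω] [IsAlgClosed Ω] {x : D.Pt Ω}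
    (hx : D.IsGen x) (hΩ : ∀ z : Ω, IsAlgebraic (D.defField x) z) (m : ℕ) :
    ∃ (M : Type u) (_ : Field M) (_ : Algebra K M) (_ : IsAlgClosed M) (e : Fin m → Ω →ₐ[K] M)
      (S : Finset M), D.Indep (fun k => D.map (e k) x) ∧ D.fld (fun k => D.map (e k) x) = ⊤ ∧
      acl K (S : Set M) = ⊤ := by
  classical
  obtain ⟨v, hv, hvx⟩ := hx
  let P := MvPolynomial (Fin m × Fin D.g) K
  let F := FractionRing P
  let M := AlgebraicClosure F
  let X : Fin m × Fin D.g → M := algebraMap F M ∘ (algebraMap P F ∘ MvPolynomial.X)
  have hX : IsTranscendenceBasis K X := by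
    have : Algebra.IsAlgebraic P F := IsLocalization.isAlgebraic F (nonZeroDivisors P)
    exact ((IsTranscendenceBasis.mvPolynomial (Fin m × Fin D.g) K).algebraMap_comp).algebraMap_comp
  have halg : ∀ z : Ω, z ∈ acl K (Set.range v) := fun z =>
    acl_le_of_subset_acl (D.subset_acl_of_indep hvx hv) (mem_acl.mpr (by
      rw [IntermediateField.adjoin_self]; exact hΩ z))
  have : Algebra.IsAlgebraic (Algebra.adjoin K (Set.range v)) Ω := ⟨fun z =>
    IntermediateField.isAlgebraic_adjoin_iff.mp (mem_acl.mp (halg z))⟩
  have hext : ∀ k : Fin m, ∃ e : Ω →ₐ[K] M, ∀ i, e (v i) = X (k, i) := by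
    intro k
    let π : Algebra.adjoin K (Set.range v) →ₐ[K] M :=
      (MvPolynomial.aeval fun i => X (k, i)).comp hv.repr
    have hXk : AlgebraicIndependent K fun i => X (k, i) :=
      hX.1.comp (fun i => (k, i)) fun i j e => (Prod.mk.injEq ..).mp e |>.2
    have hπ : Function.Injective π := fun a b h =>
      hv.aevalEquiv.symm.injective (hXk (by simpa [π, AlgebraicIndependent.repr] using h))
    obtain ⟨τ, hτ⟩ := exists_extend (S := Ω) π.toRingHom hπ
    refine ⟨{ τ with commutes' := fun c => ?_ }, fun i => ?_⟩
    · change τ (algebraMap K Ω c) = _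
      rw [IsScalarTower.algebraMap_apply K (Algebra.adjoin K (Set.range v)) Ω, hτ]
      exact π.commutes c
    · change τ (v i) = _
      have h1 := hτ ⟨v i, Algebra.subset_adjoin ⟨i, rfl⟩⟩
      rw [show algebraMap (Algebra.adjoin K (Set.range v)) Ω
        ⟨v i, Algebra.subset_adjoin ⟨i, rfl⟩⟩ = v i from rfl] at h1
      rw [h1]
      have h2 : hv.repr ⟨v i, Algebra.subset_adjoin ⟨i, rfl⟩⟩ = MvPolynomial.X i := by
        refine hv.aevalEquiv.injective (Subtype.ext ?_)
        rw [show hv.repr _ = hv.aevalEquiv.symm _ from rfl, AlgEquiv.apply_symm_apply]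
        simp
      simp [π, h2]
  choose e he using hext
  have hmem : ∀ k i, X (k, i) ∈ D.defField (D.map (e k) x) := fun k i => by
    rw [← SetLike.mem_coe, D.defField_map]
    exact ⟨v i, hvx i, he k i⟩
  have htop : acl K (Set.range X) = ⊤ := top_unique fun z _ =>
    mem_acl.mpr (hX.isAlgebraic_field.isAlgebraic z)
  refine ⟨M, inferInstance, inferInstance, inferInstance, e, Finset.univ.image X,
    ⟨fun k i => X (k, i), hmem, hX.1⟩, acl_eq_top htop ?_, ?_⟩
  swap
  · rw [Finset.coe_image, Finset.coe_univ, Set.image_univ]; exact htop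
  rintro _ ⟨⟨k, i⟩, rfl⟩
  exact D.defField_subset_fld _ k (hmem k i)

end Fermat.Agent.AV

end
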