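import Fermat.Agent.AV.Trace.Additive

/-!
# The trace data of a generic sum of points of curves

`exists_traceData_of_split` gives the trace data granted the splitting of classes fixed over two
algebraically independent fields, stated as `SplitStatement`.
-/

set_option autoImplicit false

noncomputable section

open AlgebraicCurve Fermat.Agent.Row27 Fermat.Agent.Row25.Split IntermediateField

namespace Fermat.Agent.AV

universe u

variable {K : Type u} [Field K]

/-- Classes fixed over two algebraically independent fields split. -/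
def SplitStatement (C : CurveData K) : Prop :=
  ∀ (Ω : Type u) [Field Ω] [Algebra K Ω] [IsAlgClosed Ω] (L N : IntermediateField K Ω)
    [IsAlgClosed L] [IsAlgClosed N] (r : ℕ) (t : Fin r → Ω), (∀ i, t i ∈ N) →
    AlgebraicIndependent L t →
    (∀ z ∈ N, IsAlgebraic (IntermediateField.adjoin K (Set.range t)) z) →
    (∀ z : Ω, IsAlgebraic (IntermediateField.adjoin K ((L : Set Ω) ∪ N)) z) →
    ∀ x : Pic0 Ω (C.curve Ω),
      (∀ s : Ω ≃ₐ[K] Ω, (∀ l ∈ L, s l = l) → (∀ z ∈ N, s z = z) →
        (specTheory C).act s x = x) →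
      ∃ a b, (specTheory C).pic (Spec.ofAlgHom L.val) a +
        (specTheory C).pic (Spec.ofAlgHom N.val) b = x

variable [IsAlgClosed K] {D : AVData K}
variable {Ω : Type u} [Field Ω] [Algebra K Ω] [IsAlgClosed Ω] {x : D.Pt Ω}

omit [IsAlgClosed K] in
theorem splitsAt_of_splitStatement {C : CurveData K} (hs : SplitStatement C)
    (hΩ : ∀ z : Ω, IsAlgebraic (D.defField x) z) : SplitsAt x C := by
  intro M _ _ _ e₁ e₂ hind htop w hw
  obtain ⟨a, ha, hia⟩ := hind
  have hcomp : ∀ k, AlgebraicIndependent K (a k) := fun k =>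
    hia.comp (fun i => (k, i)) fun i j e => (Prod.mk.injEq ..).mp e |>.2
  have hle₁ : acl K (Set.range (a 0)) ≤ e₁.fieldRange := acl_le_fieldRange e₁ (by
    rintro _ ⟨i, rfl⟩
    exact D.defField_le_fieldRange e₁ x (ha 0 i))
  have hle₂ : acl K (Set.range (a 1)) ≤ e₂.fieldRange := acl_le_fieldRange e₂ (by
    rintro _ ⟨i, rfl⟩
    exact D.defField_le_fieldRange e₂ x (ha 1 i))
  have hge : ∀ {e : Ω →ₐ[K] M} {k : Fin 2}, (∀ i, a k i ∈ D.defField (D.map e x)) →
      e.fieldRange ≤ acl K (Set.range (a k)) := fun hak =>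
    (fieldRange_le_acl hΩ _ rfl).trans
      (acl_le_of_subset_acl (D.subset_acl_of_indep hak (hcomp _)))
  have hge₁ := hge (e := e₁) (k := 0) (ha 0)
  have hge₂ := hge (e := e₂) (k := 1) (ha 1)
  have hsum : AlgebraicIndependent K (Sum.elim (a 1) (a 0)) := by
    refine (algebraicIndependent_equiv' (Equiv.refl _) ?_).mp
      (hia.comp (Sum.elim (fun i => ((1 : Fin 2), i)) fun i => ((0 : Fin 2), i)) ?_)
    · funext i; rcases i with i | i <;> rfl
    · intro p q hpq
      rcases p with i | i <;> rcases q with j | j <;> simp at hpq <;> simp [hpq]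
  have halg : ∀ z : M, IsAlgebraic (IntermediateField.adjoin K
      ((acl K (Set.range (a 0)) : Set M) ∪ acl K (Set.range (a 1)))) z := by
    intro z
    refine mem_acl.mp (acl_mono ?_ (show z ∈ D.fld ![D.map e₁ x, D.map e₂ x] by rw [htop]; trivial))
    refine Set.iUnion_subset fun k => ?_
    fin_cases k
    · exact Set.subset_union_of_subset_left
        ((D.defField_le_fieldRange e₁ x).trans hge₁) _
    · exact Set.subset_union_of_subset_right
        ((D.defField_le_fieldRange e₂ x).trans hge₂) _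
  obtain ⟨a₁, b₁, hab⟩ := hs M (acl K (Set.range (a 0))) (acl K (Set.range (a 1))) D.g (a 1)
    (fun i => subset_acl _ ⟨i, rfl⟩) (independent_acl hsum)
    (fun z hz => mem_acl.mp hz) halg w fun s h₁ h₂ => hw s
      (AlgHom.ext fun z => h₁ _ (hge₁ ⟨z, rfl⟩)) (AlgHom.ext fun z => h₂ _ (hge₂ ⟨z, rfl⟩))
  obtain ⟨α, hα⟩ := range_pic_val_le (T := specTheory C) e₁ hle₁ ⟨a₁, rfl⟩
  obtain ⟨β, hβ⟩ := range_pic_val_le (T := specTheory C) e₂ hle₂ ⟨b₁, rfl⟩
  exact ⟨α, β, by rw [hα, hβ, hab]⟩

/-- **Trace data from splitting.** -/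
theorem exists_traceData_of_split (D : AVData K) (S : SumCurves D)
    (hs : ∀ i, SplitStatement (S.C i)) : Nonempty (TraceData D S) := by
  classical
  set x : D.Pt S.Ω := ∑ i, S.sum i S.Ω ((S.C i).cls S.Ω (Finsupp.single (S.Q i) 1)) with hx
  have hΩ : ∀ z : S.Ω, IsAlgebraic (D.defField x) z := S.isAlgebraic
  obtain ⟨N, z, hN, hzsum, hzfix⟩ := exists_orbit_sum S.C (D.defField x) hΩ
    (fun i => (S.C i).cls S.Ω (Finsupp.single (S.Q i) 1)) (fun i => S.sum i S.Ω) x fun σ hσ => by
      calc ∑ i, S.sum i S.Ω ((specTheory (S.C i)).act σ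
            ((S.C i).cls S.Ω (Finsupp.single (S.Q i) 1))) = D.map (σ : S.Ω →ₐ[K] S.Ω) x := by
            rw [hx, map_sum]
            exact Finset.sum_congr rfl fun i _ => (S.sum_pic i (σ : S.Ω →ₐ[K] S.Ω) _).symm
        _ = x := D.fixes_of_apply hσ
  have hz : ∀ i, SpecIsFix (specTheory (S.C i)) D x (z i) := fun i σ hσ =>
    hzfix σ (fun m hm => hσ.apply hm) i
  choose κ hκ using fun i =>
    exists_shift_nsmul hΩ S.isGen (hz i) (splitsAt_of_splitStatement (hs i) hΩ)
  refine ⟨{
    N := N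
    N_pos := hN
    z := fun i => z i + (specTheory (S.C i)).pic (Spec.ofAlgHom (Algebra.ofId K S.Ω)) (κ i)
    a := ∑ i, S.sum i K (κ i)
    sum_eq := ?_
    fixed := fun σ hσ i => ?_
    nsmul := fun n _ σ hσ i => hκ i n σ hσ }⟩
  · simp only [map_add, Finset.sum_add_distrib]
    rw [hzsum, map_sum]
    exact congrArg _ (Finset.sum_congr rfl fun i _ => (S.sum_pic i _ (κ i)).symm)
  · rw [map_add]
    exact congrArg₂ (· + ·) (hz i σ hσ) (specIsFix_const (κ i) σ hσ)

end Fermat.Agent.AV

end
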