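import Fermat.Agent.AV.Trace.Transport
import Fermat.Agent.AV.Trace.Descent
import Fermat.Agent.Row25.AV.Split.Extend

/-!
# Pairs of independent conjugates of a generic point

The field generated by two independent conjugates maps to every field containing two independent
conjugates. Classes over the closures of independent points meet in the constant classes.
-/

set_option autoImplicit false

noncomputable section

open AlgebraicCurve Fermat.Agent.Row27 Fermat.Agent.Row25.Split IntermediateField

namespace Fermat.Agent.AV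

universe u

variable {K : Type u} [Field K] {D : AVData K}
variable {Ω : Type u} [Field Ω] [Algebra K Ω] [IsAlgClosed Ω]
variable {M M' : Type u} [Field M] [Algebra K M] [IsAlgClosed M] [Field M'] [Algebra K M']
  [IsAlgClosed M']

theorem acl_le_fieldRange (f : M' →ₐ[K] M) {S : Set M} (h : S ⊆ Set.range f) :
    acl K S ≤ f.fieldRange := fun _ hz => mem_range_of_isAlgebraic f h (mem_acl.mp hz)

/-- A generic multiple generates the field of the point up to algebraic extension. -/
theorem subset_acl_of_isGen {u v : D.Pt M} (hv : D.IsGen v) (h : D.defField v ≤ D.defField u) :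
    (D.defField u : Set M) ⊆ acl K (D.defField v : Set M) := by
  obtain ⟨a, ha, hmem⟩ := hv
  refine (D.subset_acl_of_indep (fun i => h (hmem i)) ha).trans (acl_mono ?_)
  rintro _ ⟨i, rfl⟩
  exact hmem i

omit [IsAlgClosed M] in
theorem AVData.Indep.swap {u v : D.Pt M} (h : D.Indep ![u, v]) : D.Indep ![v, u] := by
  have h1 := h.comp ![1, 0] (by decide)
  convert h1 using 1
  funext k
  fin_cases k <;> rfl

theorem AVData.Indep.add_left {u v : D.Pt M} (h : D.Indep ![u, v]) : D.Indep ![u + v, v] := by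
  refine h.of_le fun k => ?_
  fin_cases k
  · show (D.defField u : Set M) ⊆ D.fld ![u + v, v]
    have h1 := D.sub_subset_fld ![u + v, v] (D.defField_subset_fld _ 0) (D.defField_subset_fld _ 1)
    simpa using h1
  · exact D.defField_subset_fld ![u + v, v] 1

theorem AVData.Indep.add_right {u v : D.Pt M} (h : D.Indep ![u, v]) : D.Indep ![u, u + v] := by
  have h1 := h.swap.add_left
  rw [add_comm v u] at h1
  exact h1.swap

variable {x : D.Pt Ω} (hΩ : ∀ z : Ω, IsAlgebraic (D.defField x) z)
include hΩ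

/-- Embeddings moving the point to independent points have disjoint images. -/
theorem disj_fieldRange [IsAlgClosed K] {f₁ f₂ : Ω →ₐ[K] M}
    (h : D.Indep ![D.map f₁ x, D.map f₂ x]) :
    Disj K (f₁.fieldRange : Set M) (f₂.fieldRange : Set M) := by
  obtain ⟨a, ha, hind⟩ := h
  have hsum : AlgebraicIndependent K (Sum.elim (a 0) (a 1)) := by
    refine (algebraicIndependent_equiv' (Equiv.refl _) ?_).mp
      (hind.comp (Sum.elim (fun i => ((0 : Fin 2), i)) fun i => ((1 : Fin 2), i)) ?_)
    · funext i; rcases i with i | i <;> rfl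
    · intro p q hpq
      rcases p with i | i <;> rcases q with j | j <;> simp at hpq <;> simp [hpq]
  refine (disj_acl hsum).mono ?_ ?_
  · refine (fieldRange_le_acl hΩ f₁ rfl).trans (acl_le_of_subset_acl ?_)
    exact D.subset_acl_of_indep (ha 0) (hind.comp (fun i => ((0 : Fin 2), i))
      fun i j e => (Prod.mk.injEq ..).mp e |>.2)
  · refine (fieldRange_le_acl hΩ f₂ rfl).trans (acl_le_of_subset_acl ?_)
    exact D.subset_acl_of_indep (ha 1) (hind.comp (fun i => ((1 : Fin 2), i))
      fun i j e => (Prod.mk.injEq ..).mp e |>.2)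

/-- The field of two independent conjugates maps to any other. -/
theorem exists_hom_pair [IsAlgClosed K] {e₁ e₂ : Ω →ₐ[K] M}
    (h : D.Indep ![D.map e₁ x, D.map e₂ x]) (htop : D.fld ![D.map e₁ x, D.map e₂ x] = ⊤)
    {f₁ f₂ : Ω →ₐ[K] M'} (h' : D.Indep ![D.map f₁ x, D.map f₂ x]) :
    ∃ f : M →ₐ[K] M', f.comp e₁ = f₁ ∧ f.comp e₂ = f₂ := by
  let i₁ : Ω ≃ₐ[K] e₁.fieldRange := AlgEquiv.ofInjectiveField e₁
  let i₂ : Ω ≃ₐ[K] e₂.fieldRange := AlgEquiv.ofInjectiveField e₂
  have halg : ∀ z : M,
      IsAlgebraic (IntermediateField.adjoin K ((e₁.fieldRange : Set M) ∪ e₂.fieldRange)) z := by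
    intro z
    refine mem_acl.mp (acl_mono ?_ (show z ∈ D.fld ![D.map e₁ x, D.map e₂ x] by rw [htop]; trivial))
    refine Set.iUnion_subset fun k => ?_
    fin_cases k
    · exact Set.subset_union_of_subset_left (D.defField_le_fieldRange e₁ x) _
    · exact Set.subset_union_of_subset_right (D.defField_le_fieldRange e₂ x) _
  obtain ⟨f, hf₁, hf₂⟩ := exists_extend_fix e₁.fieldRange e₂.fieldRange (disj_fieldRange hΩ h) halg
    (f₁.comp i₁.symm.toAlgHom) (f₂.comp i₂.symm.toAlgHom)
    ((disj_fieldRange hΩ h').mono (by rintro _ ⟨z, rfl⟩; exact ⟨i₁.symm z, rfl⟩)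
      (by rintro _ ⟨z, rfl⟩; exact ⟨i₂.symm z, rfl⟩))
  refine ⟨f, AlgHom.ext fun z => ?_, AlgHom.ext fun z => ?_⟩
  · exact (hf₁ (i₁ z)).trans (congrArg f₁ (i₁.symm_apply_apply z))
  · exact (hf₂ (i₂ z)).trans (congrArg f₂ (i₂.symm_apply_apply z))

omit hΩ

section Meet

variable [IsAlgClosed K] {C : CurveData K}

/-- Classes over the closures of disjoint families meet in the constant classes. -/
theorem exists_const_of_ratOver {S₁ S₂ : Set M} (S : Finset M) (hS : acl K (S : Set M) = ⊤)
    (hd : Disj K (acl K S₁ : Set M) (acl K S₂ : Set M)) {w : Pic0 M (C.curve M)}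
    (h₁ : w ∈ (specTheory C).ratOver S₁) (h₂ : w ∈ (specTheory C).ratOver S₂) :
    ∃ c, (specTheory C).pic (Spec.ofAlgHom (Algebra.ofId K M)) c = w := by
  obtain ⟨y₁, h₁⟩ := h₁
  obtain ⟨y₂, h₂⟩ := h₂
  refine exists_pic_of_inf_eq_bot (thetaTheory C (specTheory C)) S (fun z => ?_) ?_ y₁ y₂ h₁ h₂
  · exact mem_acl.mp (hS.ge (IntermediateField.mem_top (x := z)))
  · refine eq_bot_iff.mpr fun z hz => ?_
    obtain ⟨c, hc⟩ := mem_range_of_disj hd (one_mem (acl K S₁)) (fun w hw => neg_mem hw)
      (one_mem (acl K S₂)) hz.1 hz.2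
    exact hc ▸ IntermediateField.algebraMap_mem _ c

end Meet

end Fermat.Agent.AV

end
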