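import Fermat.Agent.AV.Trace.Main
import Fermat.Agent.Row25.AV.Split.Main

/-!
# Trace data exist
-/

set_option autoImplicit false

noncomputable section

open Fermat.Agent.Row27 Fermat.Agent.Row25.Split

namespace Fermat.Agent.AV

universe u

variable {K : Type u} [Field K] [IsAlgClosed K]

/-- Trace data exist. -/
theorem exists_traceData (D : AVData K) (S : SumCurves D) : Nonempty (TraceData D S) :=
  exists_traceData_of_split D S fun i _ _ _ _ _ _ _ _ _ _ htN hind hNt halg _ hx =>
    exists_split (S.C i) htN hind hNt halg hx

end Fermat.Agent.AV

end
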