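import Fermat.Agent.AV.Trace.Indep

/-!
# Classes rational over a generic point

A class over `Ω` fixed by the automorphisms fixing a generic point `x` defines a class at every
conjugate of `x`. The sums over the orbit of finitely many places give such classes.
-/

set_option autoImplicit false

noncomputable section

open AlgebraicCurve Fermat.Agent.Row27 IntermediateField

namespace Fermat.Agent.AV

universe u

variable {K : Type u} [Field K] {D : AVData K}
variable {Ω : Type u} [Field Ω] [Algebra K Ω] [IsAlgClosed Ω]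
variable {M M' : Type u} [Field M] [Algebra K M] [IsAlgClosed M] [Field M'] [Algebra K M']
  [IsAlgClosed M']

/-- The automorphisms fixing a point. -/
def AVData.Fixes (D : AVData K) (x : D.Pt Ω) (σ : Ω ≃ₐ[K] Ω) : Prop :=
  D.map (σ : Ω →ₐ[K] Ω) x = x

omit [IsAlgClosed Ω] in
theorem AVData.Fixes.apply {x : D.Pt Ω} {σ : Ω ≃ₐ[K] Ω} (h : D.Fixes x σ) {z : Ω}
    (hz : z ∈ D.defField x) : σ z = z := by
  refine D.eqOn_defField (σ : Ω →ₐ[K] Ω) (AlgHom.id K Ω) x ?_ z hz
  rw [D.red_id]
  exact h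

omit [IsAlgClosed Ω] in
theorem AVData.fixes_of_apply {x : D.Pt Ω} {σ : Ω ≃ₐ[K] Ω}
    (h : ∀ z ∈ D.defField x, σ z = z) : D.Fixes x σ :=
  (D.map_eq_of_eqOn (σ : Ω →ₐ[K] Ω) (AlgHom.id K Ω) x h).trans (D.red_id x)

/-- Two embeddings moving a generic point alike differ by an automorphism fixing it. -/
theorem exists_fixes {x : D.Pt Ω} (hΩ : ∀ z : Ω, IsAlgebraic (D.defField x) z)
    {e e' : Ω →ₐ[K] M} (h : D.map e x = D.map e' x) :
    ∃ σ : Ω ≃ₐ[K] Ω, D.Fixes x σ ∧ e' = e.comp (σ : Ω →ₐ[K] Ω) := by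
  have hx : ∀ z : Ω, z ∈ acl K (D.defField x : Set Ω) := fun z => by
    rw [mem_acl, IntermediateField.adjoin_self]
    exact hΩ z
  have himg : e '' (D.defField x : Set Ω) = e' '' (D.defField x : Set Ω) :=
    Set.image_congr fun z hz => D.eqOn_defField e e' x h z hz
  have hle : ∀ (f f' : Ω →ₐ[K] M), f '' (D.defField x : Set Ω) = f' '' (D.defField x : Set Ω) →
      f'.fieldRange ≤ f.fieldRange := by
    rintro f f' hff _ ⟨z, rfl⟩
    exact mem_range_of_isAlgebraic f (S := f '' (D.defField x : Set Ω))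
      (Set.image_subset_range _ _) (mem_acl.mp (hff ▸ (map_mem_acl_iff f').mpr (hx z)))
  have heq : e'.fieldRange = e.fieldRange :=
    le_antisymm (hle e e' himg) (hle e' e himg.symm)
  let σ : Ω ≃ₐ[K] Ω := (AlgEquiv.ofInjectiveField e').trans
    ((IntermediateField.equivOfEq heq).trans (AlgEquiv.ofInjectiveField e).symm)
  have hσ : ∀ z, e (σ z) = e' z := fun z =>
    congrArg Subtype.val ((AlgEquiv.ofInjectiveField e).apply_symm_apply
      (IntermediateField.equivOfEq heq (AlgEquiv.ofInjectiveField e' z)))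
  refine ⟨σ, D.fixes_of_apply fun z hz => e.injective ?_, AlgHom.ext fun z => (hσ z).symm⟩
  exact (hσ z).trans (D.eqOn_defField e e' x h z hz).symm

variable {C : CurveData K} {T : SpecTheory C}

/-- The class is fixed by the automorphisms fixing the point. -/
def SpecIsFix (T : SpecTheory C) (D : AVData K) (x : D.Pt Ω) (z : Pic0 Ω (C.curve Ω)) : Prop :=
  ∀ σ : Ω ≃ₐ[K] Ω, D.Fixes x σ → T.act σ z = z

open scoped Classical in
/-- The class at a conjugate point. -/
def transport (T : SpecTheory C) (x : D.Pt Ω) (z : Pic0 Ω (C.curve Ω)) (y : D.Pt M) :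
    Pic0 M (C.curve M) :=
  if h : ∃ e : Ω →ₐ[K] M, D.map e x = y then T.pic (Spec.ofAlgHom h.choose) z else 0

variable {x : D.Pt Ω} (hΩ : ∀ z : Ω, IsAlgebraic (D.defField x) z)
include hΩ

theorem transport_eq {z : Pic0 Ω (C.curve Ω)} (hz : SpecIsFix T D x z) {y : D.Pt M}
    (e : Ω →ₐ[K] M) (he : D.map e x = y) : transport T x z y = T.pic (Spec.ofAlgHom e) z := by
  have h : ∃ e : Ω →ₐ[K] M, D.map e x = y := ⟨e, he⟩
  rw [transport, dif_pos h]
  obtain ⟨σ, hσ, hcomp⟩ := exists_fixes hΩ (h.choose_spec.trans he.symm)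
  rw [hcomp, ← T.pic_algHom_comp]
  congr 1
  exact (hz σ hσ).symm

variable (hx : D.IsGen x)
include hx

theorem transport_map {z : Pic0 Ω (C.curve Ω)} (hz : SpecIsFix T D x z) {y : D.Pt M}
    (hy : D.IsGen y) (f : M →ₐ[K] M') :
    transport T x z (D.map f y) = T.pic (Spec.ofAlgHom f) (transport T x z y) := by
  obtain ⟨e, he⟩ := D.exists_red_eq x y hx hy hΩ
  rw [transport_eq hΩ hz e he, transport_eq hΩ hz (f.comp e) (by rw [← D.map_map, ← he]),
    T.pic_algHom_comp]

omit hx in
/-- The closure of the field of a conjugate contains the whole embedded field. -/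
theorem fieldRange_le_acl {y : D.Pt M} (e : Ω →ₐ[K] M) (he : D.map e x = y) :
    e.fieldRange ≤ acl K (D.defField y : Set M) := by
  rintro _ ⟨z, rfl⟩
  subst he
  rw [D.defField_map]
  refine (map_mem_acl_iff e).mpr ?_
  rw [mem_acl, IntermediateField.adjoin_self]
  exact hΩ z

/-- The classes with values over a subfield. -/
def _root_.Fermat.Agent.Row27.SpecTheory.ratOver (T : SpecTheory C) (S : Set M) :
    AddSubgroup (Pic0 M (C.curve M)) :=
  (T.pic (Spec.ofAlgHom (acl K S).val)).range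

omit hΩ hx

omit [IsAlgClosed M] in
theorem val_comp_inclusion {E E' : IntermediateField K M} (h : E ≤ E') :
    E'.val.comp (IntermediateField.inclusion h) = E.val := AlgHom.ext fun _ => rfl

theorem range_pic_val_mono {E E' : IntermediateField K M} [IsAlgClosed E] [IsAlgClosed E']
    (h : E ≤ E') :
    (T.pic (Spec.ofAlgHom E.val)).range ≤ (T.pic (Spec.ofAlgHom E'.val)).range := by
  rintro _ ⟨a, rfl⟩
  refine ⟨T.pic (Spec.ofAlgHom (IntermediateField.inclusion h)) a, ?_⟩
  rw [T.pic_algHom_comp, val_comp_inclusion h]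

theorem ratOver_mono {S S' : Set M} (h : S ⊆ acl K S') : T.ratOver S ≤ T.ratOver S' :=
  range_pic_val_mono (acl_le_of_subset_acl h)

theorem range_pic_val_le {E : IntermediateField K M} [IsAlgClosed E] {L : Type u} [Field L]
    [Algebra K L] [IsAlgClosed L] (f : L →ₐ[K] M) (h : E ≤ f.fieldRange) :
    (T.pic (Spec.ofAlgHom E.val)).range ≤ (T.pic (Spec.ofAlgHom f)).range := by
  rintro _ ⟨a, rfl⟩
  let g : E →ₐ[K] L :=
    (AlgEquiv.ofInjectiveField f).symm.toAlgHom.comp (IntermediateField.inclusion h)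
  have hg : f.comp g = E.val := AlgHom.ext fun z =>
    congrArg Subtype.val ((AlgEquiv.ofInjectiveField f).apply_symm_apply
      (IntermediateField.inclusion h z))
  exact ⟨T.pic (Spec.ofAlgHom g) a, by rw [T.pic_algHom_comp, hg]⟩

theorem range_pic_le_val {E : IntermediateField K M} [IsAlgClosed E] {L : Type u} [Field L]
    [Algebra K L] [IsAlgClosed L] (f : L →ₐ[K] M) (h : f.fieldRange ≤ E) :
    (T.pic (Spec.ofAlgHom f)).range ≤ (T.pic (Spec.ofAlgHom E.val)).range := by
  rintro _ ⟨a, rfl⟩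
  let g : L →ₐ[K] E := f.codRestrict E.toSubalgebra fun z => h ⟨z, rfl⟩
  have hg : E.val.comp g = f := AlgHom.ext fun _ => rfl
  exact ⟨T.pic (Spec.ofAlgHom g) a, by rw [T.pic_algHom_comp, hg]⟩

theorem pic_mem_ratOver {S : Set M} {L : Type u} [Field L] [Algebra K L] [IsAlgClosed L]
    (f : L →ₐ[K] M) (h : f.fieldRange ≤ acl K S) (a : Pic0 L (C.curve L)) :
    T.pic (Spec.ofAlgHom f) a ∈ T.ratOver S :=
  range_pic_le_val f h ⟨a, rfl⟩

include hΩ hx in
theorem transport_mem_ratOver {z : Pic0 Ω (C.curve Ω)} (hz : SpecIsFix T D x z) {y : D.Pt M}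
    (hy : D.IsGen y) : transport T x z y ∈ T.ratOver (D.defField y : Set M) := by
  obtain ⟨e, he⟩ := D.exists_red_eq x y hx hy hΩ
  rw [transport_eq hΩ hz e he]
  exact pic_mem_ratOver e (fieldRange_le_acl hΩ e he) z

end Fermat.Agent.AV

end
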